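/-
S55 (Poitou–Tate), package C3, leaf L4 (local norm index), helper98.

Abstract Herbrand calculus on top of `H84.Herbrand`:

* `hIdxSub_eq_of_core` : a subgroup `A` (the units) containing a subgroup `V` of finite index,
  stable under `f, g`, with trivial `Ĥ⁰`/`Ĥ⁻¹`, has equal (finite) Herbrand indices;
* `hIdx_eq_of_val` : if moreover `A` is the kernel of a surjective "valuation" `π : B → ℤ` with
  `π ∘ f = 0`, `π ∘ g = n • π` and `ker g ⊆ im f` ("Hilbert 90"), then `[ker f : im g] = n`.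
-/
import Mathlib
import Fermat.Agent.S55.H84.Herbrand

set_option autoImplicit false

namespace Fermat.Agent.S55.H98

open AddSubgroup Fermat.Agent.S55.H84

variable {B : Type*} [AddCommGroup B] {f g : B →+ B}

/-- Restriction of an endomorphism to a stable subgroup. -/
noncomputable def restr (A : AddSubgroup B) (f : B →+ B) (hfA : ∀ a ∈ A, f a ∈ A) : A →+ A :=
  (f.comp A.subtype).codRestrict A (fun a => hfA a a.2)

@[simp] theorem coe_restr (A : AddSubgroup B) (f : B →+ B) (hfA : ∀ a ∈ A, f a ∈ A) (a : A) :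
    ((restr A f hfA a : A) : B) = f a := rfl

theorem hIdx_restr (A : AddSubgroup B) (hfA : ∀ a ∈ A, f a ∈ A) (hgA : ∀ a ∈ A, g a ∈ A) :
    hIdx (restr A f hfA) (restr A g hgA) = hIdxSub A f g := by
  have h := hIdx_eq_hIdxSub (fA := restr A f hfA) (gA := restr A g hgA) (fB := f) (gB := g)
    (i := A.subtype) A.subtype_injective (fun _ => rfl) (fun _ => rfl)
  rwa [AddSubgroup.range_subtype] at h

/-- If `V ≤ A` has finite index, both are stable under `f, g` (`f g = 0 = g f`), and `V` has trivial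
`Ĥ⁰` and `Ĥ⁻¹`, then the two Herbrand indices of `A` are equal and nonzero. -/
theorem hIdxSub_eq_of_core (V A : AddSubgroup B) (hVA : V ≤ A)
    (hfg : ∀ b, f (g b) = 0) (hgf : ∀ b, g (f b) = 0)
    (hfA : ∀ a ∈ A, f a ∈ A) (hgA : ∀ a ∈ A, g a ∈ A)
    (hfV : ∀ a ∈ V, f a ∈ V) (hgV : ∀ a ∈ V, g a ∈ V)
    (hfin : V.relIndex A ≠ 0)
    (h0 : ∀ v ∈ V, f v = 0 → ∃ w ∈ V, g w = v) (h1 : ∀ v ∈ V, g v = 0 → ∃ w ∈ V, f w = v) :
    hIdxSub A f g = hIdxSub A g f ∧ hIdxSub A f g ≠ 0 := by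
  classical
  set fA := restr A f hfA with hfAdef
  set gA := restr A g hgA with hgAdef
  set V' : AddSubgroup A := V.addSubgroupOf A with hV'
  have hfgA : ∀ b, fA (gA b) = 0 := fun b => Subtype.ext (hfg b)
  have hgfA : ∀ b, gA (fA b) = 0 := fun b => Subtype.ext (hgf b)
  have hfV' : ∀ a ∈ V', fA a ∈ V' := fun a ha => hfV a ha
  have hgV' : ∀ a ∈ V', gA a ∈ V' := fun a ha => hgV a ha
  -- the indices of `V'` are `1`
  have hs0 : hIdxSub V' fA gA = 1 := by
    unfold hIdxSub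
    rw [relIndex_eq_one]
    rintro x ⟨hx1, hx2⟩
    have hx1' : f x = 0 := congrArg Subtype.val ((AddMonoidHom.mem_ker).1 hx1)
    obtain ⟨w, hw, hwx⟩ := h0 x hx2 hx1'
    exact ⟨⟨w, hVA hw⟩, hw, Subtype.ext hwx⟩
  have hs1 : hIdxSub V' gA fA = 1 := by
    unfold hIdxSub
    rw [relIndex_eq_one]
    rintro x ⟨hx1, hx2⟩
    have hx1' : g x = 0 := congrArg Subtype.val ((AddMonoidHom.mem_ker).1 hx1)
    obtain ⟨w, hw, hwx⟩ := h1 x hx2 hx1'
    exact ⟨⟨w, hVA hw⟩, hw, Subtype.ext hwx⟩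
  -- the quotient is finite
  have hfinV' : V'.index ≠ 0 := hfin
  have : V'.FiniteIndex := ⟨hfinV'⟩
  have : Finite (A ⧸ V') := AddSubgroup.finite_quotient_of_finiteIndex
  let fQ : A ⧸ V' →+ A ⧸ V' := QuotientAddGroup.map V' V' fA (fun a ha => hfV' a ha)
  let gQ : A ⧸ V' →+ A ⧸ V' := QuotientAddGroup.map V' V' gA (fun a ha => hgV' a ha)
  have hfgQ : ∀ b, fQ (gQ b) = 0 := by
    intro b
    induction b using QuotientAddGroup.induction_on with
    | H a =>
      show ((fA (gA a) : A) : A ⧸ V') = 0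
      rw [hfgA]; rfl
  have hgfQ : ∀ b, gQ (fQ b) = 0 := by
    intro b
    induction b using QuotientAddGroup.induction_on with
    | H a =>
      show ((gA (fA a) : A) : A ⧸ V') = 0
      rw [hgfA]; rfl
  obtain ⟨hQeq, hQne⟩ := hIdx_eq_of_finite (f := fQ) (g := gQ) hfgQ hgfQ
  have hq0 : hIdx fQ gQ = hIdxQuot V' fA gA := by
    have h := hIdx_eq_hIdxQuot (fB := fA) (gB := gA) (fC := fQ) (gC := gQ)
      (π := QuotientAddGroup.mk' V') (QuotientAddGroup.mk'_surjective V')
      (fun _ => rfl) (fun _ => rfl)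
    rwa [QuotientAddGroup.ker_mk'] at h
  have hq1 : hIdx gQ fQ = hIdxQuot V' gA fA := by
    have h := hIdx_eq_hIdxQuot (fB := gA) (gB := fA) (fC := gQ) (gC := fQ)
      (π := QuotientAddGroup.mk' V') (QuotientAddGroup.mk'_surjective V')
      (fun _ => rfl) (fun _ => rfl)
    rwa [QuotientAddGroup.ker_mk'] at h
  have key := hIdx_mul_internal V' hfgA hgfA hfV' hgV'
  rw [hs0, hs1, ← hq0, ← hq1, ← hQeq, one_mul] at key
  have hne := hIdx_ne_zero_of_sub_quot V' hfgA hgfA hfV' hgV' (by rw [hs0]; exact one_ne_zero)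
    (by rw [hs1]; exact one_ne_zero) (by rw [← hq0]; exact hQne)
    (by rw [← hq1, ← hQeq]; exact hQne)
  have hAeq : hIdx gA fA = hIdx fA gA := Nat.eq_of_mul_eq_mul_left (Nat.pos_of_ne_zero hQne) key
  rw [← hIdx_restr A hfA hgA, ← hIdx_restr A hgA hfA]
  exact ⟨hAeq.symm, hne.1⟩

/-- The norm-index computation: if `A = ker π` for a surjective `π : B → ℤ` with `π ∘ f = 0` and
`π ∘ g = n • π`, the Herbrand indices of `A` are equal and nonzero, and `ker g ⊆ im f`, then
`[ker f : im g] = n`. -/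
theorem hIdx_eq_of_val (A : AddSubgroup B) (π : B →+ ℤ) (n : ℕ) (hn : n ≠ 0)
    (hπ : Function.Surjective π) (hker : π.ker = A)
    (hfg : ∀ b, f (g b) = 0) (hgf : ∀ b, g (f b) = 0)
    (hπf : ∀ b, π (f b) = 0) (hπg : ∀ b, π (g b) = n • π b)
    (hA : hIdxSub A f g = hIdxSub A g f) (hA0 : hIdxSub A f g ≠ 0)
    (h90 : ∀ b, g b = 0 → ∃ c, f c = b) : hIdx f g = n := by
  have hmemA : ∀ b, b ∈ A ↔ π b = 0 := fun b => by rw [← hker]; exact AddMonoidHom.mem_ker
  have hfA : ∀ a ∈ A, f a ∈ A := fun a _ => (hmemA _).2 (hπf a)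
  have hgA : ∀ a ∈ A, g a ∈ A := fun a ha => (hmemA _).2 (by rw [hπg, (hmemA a).1 ha, smul_zero])
  have key := hIdx_mul_internal A hfg hgf hfA hgA
  have h1 : hIdx g f = 1 := by
    unfold hIdx
    rw [relIndex_eq_one]
    intro b hb
    obtain ⟨c, hc⟩ := h90 b ((AddMonoidHom.mem_ker).1 hb)
    exact ⟨c, hc⟩
  have h2 : hIdxQuot A g f = 1 := by
    unfold hIdxQuot
    rw [relIndex_eq_one]
    intro x hx
    rw [mem_comap, hmemA, hπg] at hx
    have hx0 : π x = 0 := by
      rcases smul_eq_zero.1 hx with h | h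
      · exact absurd h hn
      · exact h
    exact mem_sup_right ((hmemA x).2 hx0)
  have h3 : hIdxQuot A f g = n := by
    unfold hIdxQuot
    have hc : A.comap f = ⊤ := by
      ext x
      simp only [mem_comap, mem_top, iff_true]
      exact (hmemA _).2 (hπf x)
    have hs : g.range ⊔ A = (AddSubgroup.zmultiples (n : ℤ)).comap π := by
      ext x
      rw [mem_comap]
      constructor
      · intro hx
        obtain ⟨y, ⟨b, rfl⟩, z, hz, rfl⟩ := mem_sup.1 hx
        rw [map_add, (hmemA z).1 hz, add_zero, hπg]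
        exact ⟨π b, by simp [mul_comm]⟩
      · rintro ⟨k, hk⟩
        obtain ⟨c, hc⟩ := hπ k
        have : x = g c + (x - g c) := by abel
        rw [this]
        refine add_mem (mem_sup_left ⟨c, rfl⟩) (mem_sup_right ?_)
        rw [hmemA, map_sub, hπg, hc, ← hk]
        simp [mul_comm]
    rw [hc, relIndex_top_right, hs, index_comap_of_surjective _ hπ, Int.index_zmultiples]
    simp
  rw [h1, h2, h3, mul_one, mul_one, ← hA] at key
  exact (Nat.eq_of_mul_eq_mul_left (Nat.pos_of_ne_zero hA0) key).symm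

end Fermat.Agent.S55.H98
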