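/-
S55 (Poitou–Tate), package C3, leaf L4 (the local norm index), helper98.

`leafNormIndex_of : LeafUnif q → UnitCore q → LeafNormIndex q`:
for a cyclic extension `L/F` of embedded local fields, `(Fˣ : N Lˣ) = [L : F]`.

Proof: Herbrand calculus (`HerbrandVal.lean`, on helper84's landed `Herbrand.lean`) for the
endomorphisms `σ - 1` and `N` of `Lˣ`, the valuation `Lˣ → ℤ` (from `LeafUnif`), Hilbert 90
(Mathlib), and the *unit core* `UnitCore q`: a `σ`-stable subgroup `V` of finite index in the units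
of `L` with trivial `Ĥ⁰` and `Ĥ⁻¹`.
-/
import Fermat.Agent.S55.H66.LocalSpec
import Fermat.Agent.S55.H98.HerbrandVal

set_option autoImplicit false
set_option linter.unusedSectionVars false

noncomputable section

namespace Fermat.Agent.S55.H98

open Fermat.Agent.S55.H66 Fermat.Agent.S55.H84

variable (q : ℕ) [Fact q.Prime]

/-- The unit core: for a cyclic extension `L/F` (generator `σ`) of embedded local fields there is a
`σ`-stable subgroup `V` of finite index in the unit group of `L` such that every `σ`-fixed element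
of `V` is the norm of an element of `V`, and every element of `V` of norm `1` is `σ w / w` with
`w ∈ V`. -/
def UnitCore : Prop :=
  ∀ (F : Type) [Field F] [Algebra ℚ_[q] F] [Algebra F (PadicAlgCl q)]
    [IsScalarTower ℚ_[q] F (PadicAlgCl q)] [FiniteDimensional ℚ_[q] F]
    (L : IntermediateField F (PadicAlgCl q)) [FiniteDimensional F L] [IsGalois F L]
    (σ : L ≃ₐ[F] L), (∀ τ : L ≃ₐ[F] L, τ ∈ Subgroup.zpowers σ) →
    ∃ V : Subgroup Lˣ, V ≤ unitGroup q L ∧ V.relIndex (unitGroup q L) ≠ 0 ∧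
      (∀ v ∈ V, Units.map (σ : L →* L) v ∈ V) ∧
      (∀ v ∈ V, σ (v : L) = v → ∃ w ∈ V, algebraMap F L (Algebra.norm F (w : L)) = v) ∧
      (∀ v ∈ V, Algebra.norm F (v : L) = 1 → ∃ w ∈ V, σ (w : L) = v * w)

section Model

variable {q}
variable {F : Type} [Field F] [Algebra ℚ_[q] F] [Algebra F (PadicAlgCl q)]
  [IsScalarTower ℚ_[q] F (PadicAlgCl q)]
variable {L : IntermediateField F (PadicAlgCl q)}

/-- Automorphisms are isometries. -/
theorem nrm_algEquiv (σ : L ≃ₐ[F] L) (x : L) : nrm q (σ x) = nrm q x := by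
  have h1 : ∀ y : L, nrm q y = spectralValue (minpoly ℚ_[q] y) := by
    intro y
    have hmin : minpoly ℚ_[q] (y : PadicAlgCl q) = minpoly ℚ_[q] y :=
      minpoly.algebraMap_eq (algebraMap L (PadicAlgCl q)).injective y
    rw [← hmin]
    rfl
  rw [h1, h1]
  exact congrArg spectralValue (minpoly.algEquiv_eq (σ.restrictScalars ℚ_[q]) x)

theorem nrm_mul (x y : L) : nrm q (x * y) = nrm q x * nrm q y := by
  simp [nrm]

theorem nrm_one : nrm q (1 : L) = 1 := by simp [nrm]

theorem nrm_prod {ι : Type*} (s : Finset ι) (x : ι → L) :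
    nrm q (∏ i ∈ s, x i) = ∏ i ∈ s, nrm q (x i) := by
  classical
  induction s using Finset.induction_on with
  | empty => simp [nrm_one]
  | insert a s ha ih => rw [Finset.prod_insert ha, Finset.prod_insert ha, nrm_mul, ih]

/-- The endomorphism `x ↦ σ x / x` of `Lˣ`, additively. -/
def fAdd (σ : L ≃ₐ[F] L) : Additive Lˣ →+ Additive Lˣ :=
  MonoidHom.toAdditive (Units.map (σ : L →* L) / MonoidHom.id Lˣ)

/-- The endomorphism `x ↦ N_{L/F} x` of `Lˣ`, additively. -/
def gAdd : Additive Lˣ →+ Additive Lˣ :=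
  MonoidHom.toAdditive (Units.map (((algebraMap F L : F →+* L) : F →* L).comp (Algebra.norm F)))

theorem fAdd_apply_coe (σ : L ≃ₐ[F] L) (x : Additive Lˣ) :
    ((Additive.toMul (fAdd σ x) : Lˣ) : L) = σ (Additive.toMul x : Lˣ) / (Additive.toMul x : Lˣ) := by
  simp [fAdd, Units.val_div_eq_div_val]

theorem gAdd_apply_coe (x : Additive Lˣ) :
    ((Additive.toMul (gAdd (F := F) x) : Lˣ) : L)
      = algebraMap F L (Algebra.norm F ((Additive.toMul x : Lˣ) : L)) := by
  simp [gAdd]

theorem fAdd_eq_zero_iff (σ : L ≃ₐ[F] L) (x : Additive Lˣ) :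
    fAdd σ x = 0 ↔ σ (Additive.toMul x : Lˣ) = (Additive.toMul x : Lˣ) := by
  have h0 : ((Additive.toMul x : Lˣ) : L) ≠ 0 := Units.ne_zero _
  constructor
  · intro h
    have h1 := fAdd_apply_coe σ x
    rw [h] at h1
    simp only [toMul_zero, Units.val_one] at h1
    exact (div_eq_one_iff_eq h0).1 h1.symm
  · intro h
    apply Additive.toMul.injective
    apply Units.ext
    rw [fAdd_apply_coe, h, div_self h0]
    rfl

theorem gAdd_eq_zero_iff (x : Additive Lˣ) :
    gAdd (F := F) x = 0 ↔ Algebra.norm F ((Additive.toMul x : Lˣ) : L) = 1 := by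
  constructor
  · intro h
    have h1 := gAdd_apply_coe (F := F) x
    rw [h] at h1
    simp only [toMul_zero, Units.val_one] at h1
    exact (algebraMap F L).injective (by rw [← h1, map_one])
  · intro h
    apply Additive.toMul.injective
    apply Units.ext
    rw [gAdd_apply_coe, h, map_one]
    rfl

theorem nrm_div (x y : L) : nrm q (x / y) = nrm q x / nrm q y := by
  simp [nrm]

theorem nrm_zpow_unit (x : Lˣ) (k : ℤ) : nrm q ((x ^ k : Lˣ) : L) = nrm q (x : L) ^ k := by
  simp [nrm]

theorem mem_unitGroup_iff (x : Lˣ) : x ∈ unitGroup q L ↔ nrm q (x : L) = 1 := Iff.rfl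

/-- If `σ` fixes `x` and generates the Galois group, `x` comes from the base field. -/
theorem mem_range_of_fixed [FiniteDimensional F L] [IsGalois F L] (σ : L ≃ₐ[F] L)
    (hσ : ∀ τ : L ≃ₐ[F] L, τ ∈ Subgroup.zpowers σ) (x : L) (hx : σ x = x) :
    x ∈ Set.range (algebraMap F L) := by
  rw [IsGalois.mem_range_algebraMap_iff_fixed]
  intro τ
  have h1 : σ ∈ MulAction.stabilizer (L ≃ₐ[F] L) x := hx
  have h2 : Subgroup.zpowers σ ≤ MulAction.stabilizer (L ≃ₐ[F] L) x :=
    (Subgroup.zpowers_le).2 h1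
  exact h2 (hσ τ)

/-- A subgroup of `Lˣ` stable under a generator `σ` is stable under the whole Galois group. -/
theorem map_mem_of_generator [FiniteDimensional F L] (σ : L ≃ₐ[F] L)
    (hσ : ∀ τ : L ≃ₐ[F] L, τ ∈ Subgroup.zpowers σ) (V : Subgroup Lˣ)
    (hV : ∀ v ∈ V, Units.map (σ : L →* L) v ∈ V) (τ : L ≃ₐ[F] L) (v : Lˣ) (hv : v ∈ V) :
    Units.map (τ : L →* L) v ∈ V := by
  have hτ : τ ∈ Submonoid.powers σ := (mem_powers_iff_mem_zpowers).2 (hσ τ)
  obtain ⟨k, rfl⟩ := hτ
  induction k generalizing v with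
  | zero =>
    have : Units.map (((σ ^ 0 : L ≃ₐ[F] L)) : L →* L) v = v := by
      apply Units.ext; simp
    rw [this]; exact hv
  | succ k ih =>
    have : Units.map (((σ ^ (k + 1) : L ≃ₐ[F] L)) : L →* L) v
        = Units.map (((σ ^ k : L ≃ₐ[F] L)) : L →* L) (Units.map (σ : L →* L) v) := by
      apply Units.ext
      simp [pow_succ]
    rw [this]
    exact ih _ (hV v hv)

/-- The norm, as an element of `Lˣ`, is the product of the conjugates. -/
theorem gAdd_toMul_eq_prod [FiniteDimensional F L] [IsGalois F L] (x : Additive Lˣ) :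
    (Additive.toMul (gAdd (F := F) x) : Lˣ)
      = ∏ τ : L ≃ₐ[F] L, Units.map (τ : L →* L) (Additive.toMul x) := by
  apply Units.ext
  rw [gAdd_apply_coe, Algebra.norm_eq_prod_automorphisms, Units.coe_prod]
  rfl

theorem nrm_gAdd [FiniteDimensional F L] [IsGalois F L] (x : Additive Lˣ) :
    nrm q ((Additive.toMul (gAdd (F := F) x) : Lˣ) : L)
      = nrm q ((Additive.toMul x : Lˣ) : L) ^ Module.finrank F L := by
  rw [gAdd_apply_coe, Algebra.norm_eq_prod_automorphisms, nrm_prod]
  simp only [nrm_algEquiv, Finset.prod_const, Finset.card_univ]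
  rw [Fintype.card_eq_nat_card, IsGalois.card_aut_eq_finrank]

theorem nrm_fAdd (σ : L ≃ₐ[F] L) (x : Additive Lˣ) :
    nrm q ((Additive.toMul (fAdd σ x) : Lˣ) : L) = 1 := by
  have h0 : nrm q ((Additive.toMul x : Lˣ) : L) ≠ 0 := by
    simp [nrm]
  rw [fAdd_apply_coe, nrm_div, nrm_algEquiv, div_self h0]

end Model

/-- **The local norm index** for cyclic extensions, from the uniformiser leaf and the unit core. -/
theorem leafNormIndex_of (hUnif : LeafUnif q) (hCore : UnitCore q) : LeafNormIndex q := by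
  intro F _ _ _ _ _ L _ _ hcyc
  have := hcyc
  obtain ⟨σ, hσ⟩ := IsCyclic.exists_generator (α := L ≃ₐ[F] L)
  set n := Module.finrank F L with hn
  have hn0 : n ≠ 0 := Module.finrank_pos.ne'
  -- the valuation
  obtain ⟨ϖ, hϖ0, hϖ1, hall⟩ := hUnif L
  set r := nrm q ϖ with hr
  have hr0 : 0 < r := by
    have : (ϖ : PadicAlgCl q) ≠ 0 := by
      intro h; exact hϖ0 (Subtype.ext h)
    exact norm_pos_iff.2 this
  have hinj : Function.Injective fun k : ℤ => r ^ k := zpow_right_injective₀ hr0 hϖ1.ne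
  let val : Lˣ → ℤ := fun x => Classical.choose (hall x x.ne_zero)
  have hval : ∀ x : Lˣ, nrm q (x : L) = r ^ val x := fun x => Classical.choose_spec (hall x x.ne_zero)
  have hval_mul : ∀ x y : Lˣ, val (x * y) = val x + val y := by
    intro x y
    apply hinj
    show r ^ val (x * y) = r ^ (val x + val y)
    rw [zpow_add₀ hr0.ne', ← hval, ← hval, ← hval, Units.val_mul, nrm_mul]
  let π : Additive Lˣ →+ ℤ := AddMonoidHom.mk' (fun x => val (Additive.toMul x))
    (fun a b => hval_mul _ _)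
  have hπ_apply : ∀ x : Additive Lˣ, π x = val (Additive.toMul x) := fun _ => rfl
  have hπ_eq : ∀ (x : Additive Lˣ) (k : ℤ), nrm q ((Additive.toMul x : Lˣ) : L) = r ^ k → π x = k := by
    intro x k hk
    apply hinj
    show r ^ val (Additive.toMul x) = r ^ k
    rw [← hval, hk]
  have hπsurj : Function.Surjective π := by
    intro k
    refine ⟨k • Additive.ofMul (Units.mk0 ϖ hϖ0), ?_⟩
    rw [map_zsmul]
    have : π (Additive.ofMul (Units.mk0 ϖ hϖ0)) = 1 := by
      apply hπ_eq
      simp [hr]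
    rw [this]
    simp
  set A : AddSubgroup (Additive Lˣ) := Subgroup.toAddSubgroup (unitGroup q L) with hA
  have hmemA : ∀ x : Additive Lˣ, x ∈ A ↔ nrm q ((Additive.toMul x : Lˣ) : L) = 1 := fun _ => Iff.rfl
  have hker : π.ker = A := by
    ext x
    rw [AddMonoidHom.mem_ker, hmemA]
    constructor
    · intro h
      have := hval (Additive.toMul x)
      rw [this]
      have h' : val (Additive.toMul x) = 0 := h
      rw [h', zpow_zero]
    · intro h
      apply hπ_eq
      rw [h, zpow_zero]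
  -- the two endomorphisms
  set f := fAdd σ with hf
  set g : Additive Lˣ →+ Additive Lˣ := gAdd (F := F) with hg
  have hfg : ∀ b, f (g b) = 0 := by
    intro b
    rw [hf, fAdd_eq_zero_iff, gAdd_apply_coe]
    exact σ.commutes _
  have hgf : ∀ b, g (f b) = 0 := by
    intro b
    rw [hg, gAdd_eq_zero_iff, fAdd_apply_coe]
    have h0 : ((Additive.toMul b : Lˣ) : L) ≠ 0 := Units.ne_zero _
    have hN0 : Algebra.norm F ((Additive.toMul b : Lˣ) : L) ≠ 0 := by
      rw [Ne, Algebra.norm_eq_zero_iff]; exact h0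
    have h1 : Algebra.norm F (σ ((Additive.toMul b : Lˣ) : L) / ((Additive.toMul b : Lˣ) : L))
        * Algebra.norm F ((Additive.toMul b : Lˣ) : L) = Algebra.norm F ((Additive.toMul b : Lˣ) : L) := by
      rw [← map_mul, div_mul_cancel₀ _ h0, Algebra.norm_eq_of_algEquiv]
    exact mul_right_cancel₀ hN0 (by rw [h1, one_mul])
  have hπf : ∀ b, π (f b) = 0 := by
    intro b
    apply hπ_eq
    rw [hf, nrm_fAdd, zpow_zero]
  have hπg : ∀ b, π (g b) = n • π b := by
    intro b
    apply hπ_eq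
    rw [hg, nrm_gAdd, hval, hπ_apply, ← zpow_natCast, ← zpow_mul]
    congr 1
    rw [nsmul_eq_mul, mul_comm]
  -- Hilbert 90
  have h90 : ∀ b, g b = 0 → ∃ c, f c = b := by
    intro b hb
    rw [hg, gAdd_eq_zero_iff] at hb
    obtain ⟨y, hy⟩ := groupCohomology.exists_div_of_norm_eq_one hσ hb
    refine ⟨Additive.ofMul y⁻¹, ?_⟩
    apply Additive.toMul.injective
    apply Units.ext
    rw [hf, fAdd_apply_coe, ← hy]
    simp only [toMul_ofMul, Units.val_inv_eq_inv_val, map_inv₀]
    field_simp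
  -- the unit core
  obtain ⟨V, hVU, hVfin, hVσ, hV0, hV1⟩ := hCore F L σ hσ
  set VA : AddSubgroup (Additive Lˣ) := Subgroup.toAddSubgroup V with hVA
  have hmemV : ∀ x : Additive Lˣ, x ∈ VA ↔ (Additive.toMul x : Lˣ) ∈ V := fun _ => Iff.rfl
  have hfA : ∀ a ∈ A, f a ∈ A := fun a _ => (hmemA _).2 (by rw [hf, nrm_fAdd])
  have hgA : ∀ a ∈ A, g a ∈ A := fun a ha => (hmemA _).2 (by
    rw [hg, nrm_gAdd, (hmemA a).1 ha, one_pow])
  have hfV : ∀ a ∈ VA, f a ∈ VA := by
    intro a ha
    rw [hmemV] at ha ⊢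
    have : (Additive.toMul (f a) : Lˣ)
        = Units.map (σ : L →* L) (Additive.toMul a) / Additive.toMul a := rfl
    rw [this]
    exact div_mem (hVσ _ ha) ha
  have hgV : ∀ a ∈ VA, g a ∈ VA := by
    intro a ha
    rw [hmemV] at ha ⊢
    rw [hg, gAdd_toMul_eq_prod]
    exact Subgroup.prod_mem _ (fun τ _ => map_mem_of_generator σ hσ V hVσ τ _ ha)
  have hcore := hIdxSub_eq_of_core (f := f) (g := g) VA A (fun x hx => hVU hx) hfg hgf hfA hgA hfV hgV
    (by rw [hVA, hA, Subgroup.relIndex_toAddSubgroup]; exact hVfin)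
    (by
      intro v hv hfv
      rw [hf, fAdd_eq_zero_iff] at hfv
      obtain ⟨w, hw, hwv⟩ := hV0 _ ((hmemV v).1 hv) hfv
      refine ⟨Additive.ofMul w, hw, ?_⟩
      apply Additive.toMul.injective
      apply Units.ext
      rw [hg, gAdd_apply_coe]
      exact hwv)
    (by
      intro v hv hgv
      rw [hg, gAdd_eq_zero_iff] at hgv
      obtain ⟨w, hw, hwv⟩ := hV1 _ ((hmemV v).1 hv) hgv
      refine ⟨Additive.ofMul w, hw, ?_⟩
      apply Additive.toMul.injective
      apply Units.ext
      rw [hf, fAdd_apply_coe]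
      simp only [toMul_ofMul]
      rw [hwv, mul_div_assoc, div_self (Units.ne_zero w), mul_one])
  have hidx := hIdx_eq_of_val (f := f) (g := g) A π n hn0 hπsurj hker hfg hgf hπf hπg
    hcore.1 hcore.2 h90
  -- translate the index
  let ι : Fˣ →* Lˣ := Units.map ((algebraMap F L : F →+* L) : F →* L)
  let NormU : Lˣ →* Fˣ := Units.map (Algebra.norm F : L →* F)
  have hιinj : Function.Injective ι := Units.map_injective (algebraMap F L).injective
  have hkerf : f.ker = Subgroup.toAddSubgroup ι.range := by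
    ext x
    rw [AddMonoidHom.mem_ker, hf, fAdd_eq_zero_iff]
    constructor
    · intro hx
      obtain ⟨y, hy⟩ := mem_range_of_fixed σ hσ _ hx
      have hy0 : y ≠ 0 := by
        rintro rfl
        rw [map_zero] at hy
        exact Units.ne_zero _ hy.symm
      exact ⟨Units.mk0 y hy0, Units.ext hy⟩
    · rintro ⟨y, hy⟩
      have hy' : ((Additive.toMul x : Lˣ) : L) = algebraMap F L (y : F) := by
        rw [← hy]; rfl
      rw [hy']
      exact σ.commutes _
  have hrang : g.range = Subgroup.toAddSubgroup (NormU.range.map ι) := by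
    ext x
    constructor
    · rintro ⟨y, rfl⟩
      exact ⟨NormU (Additive.toMul y), ⟨_, rfl⟩, Units.ext (by rw [hg, gAdd_apply_coe]; rfl)⟩
    · rintro ⟨_, ⟨y, rfl⟩, hy⟩
      refine ⟨Additive.ofMul y, ?_⟩
      apply Additive.toMul.injective
      rw [← hy]
      apply Units.ext
      rw [hg, gAdd_apply_coe]
      rfl
  have h1 : hIdx f g = NormU.range.index := by
    unfold hIdx
    rw [hkerf, hrang, Subgroup.relIndex_toAddSubgroup, MonoidHom.range_eq_map ι,
      Subgroup.relIndex_map_map_of_injective _ _ hιinj, Subgroup.relIndex_top_right]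
  rw [← h1, hidx]

end Fermat.Agent.S55.H98
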