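/-
S55 (Poitou–Tate), package C3, leaf L4 (the local norm index), helper98.

`unitCore : UnitCore q` — instantiation of helper69's abstract unit cohomology
(`H69.exists_unit_subgroup_of_galois`) in the `PadicAlgCl q` model: `O = {‖x‖ ≤ 1}`, `ϖ = q`,
completeness from properness of a finite-dimensional `ℚ_q`-space, finite index by compactness of
the unit ball.  Hence `leafNormIndex_of_unif : LeafUnif q → LeafNormIndex q`.
-/
import Fermat.Agent.S55.H98.NormIndex
import Fermat.Agent.S55.H69.UnitGalois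

set_option autoImplicit false
set_option linter.unusedSectionVars false

noncomputable section

namespace Fermat.Agent.S55.H98

open Fermat.Agent.S55.H66 Filter Topology

variable {q : ℕ} [Fact q.Prime]
variable {F : Type} [Field F] [Algebra ℚ_[q] F] [Algebra F (PadicAlgCl q)]
  [IsScalarTower ℚ_[q] F (PadicAlgCl q)]
variable (L : IntermediateField F (PadicAlgCl q))

theorem nrm_add_le (x y : L) : nrm q (x + y) ≤ max (nrm q x) (nrm q y) :=
  PadicAlgCl.isNonarchimedean q (x : PadicAlgCl q) (y : PadicAlgCl q)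

theorem nrm_nonneg (x : L) : 0 ≤ nrm q x := norm_nonneg _

theorem nrm_neg (x : L) : nrm q (-x) = nrm q x := by simp [nrm]

theorem nrm_zero : nrm q (0 : L) = 0 := by simp [nrm]

theorem nrm_pow (x : L) (k : ℕ) : nrm q (x ^ k) = nrm q x ^ k := by simp [nrm]

theorem nrm_eq_norm (x : L) : nrm q x = ‖x‖ := rfl

/-- The closed unit ball of `L`, as a subring. -/
def ballRing : Subring L where
  carrier := {x | nrm q x ≤ 1}
  mul_mem' := by
    intro a b ha hb
    show nrm q (a * b) ≤ 1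
    rw [nrm_mul]
    exact mul_le_one₀ ha (nrm_nonneg L b) hb
  one_mem' := by
    show nrm q (1 : L) ≤ 1
    rw [nrm_one]
  add_mem' := fun {a b} ha hb => (nrm_add_le L a b).trans (max_le ha hb)
  zero_mem' := by
    show nrm q (0 : L) ≤ 1
    rw [nrm_zero]; exact zero_le_one
  neg_mem' := by
    intro a ha
    show nrm q (-a) ≤ 1
    rw [nrm_neg]; exact ha

theorem mem_ballRing {x : L} : x ∈ ballRing L ↔ nrm q x ≤ 1 := Iff.rfl

/-- The norm of the residue characteristic. -/
theorem nrm_natCast_q : nrm q ((q : ℕ) : L) = (q : ℝ)⁻¹ := by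
  have h : ((((q : ℕ) : L) : L) : PadicAlgCl q) = algebraMap ℚ_[q] (PadicAlgCl q) (q : ℚ_[q]) := by
    simp
  show ‖((((q : ℕ) : L) : L) : PadicAlgCl q)‖ = _
  rw [h, PadicAlgCl.norm_extends, Padic.norm_p]

theorem nrm_q_pow_mul (k : ℕ) (x : L) :
    nrm q (((q : ℕ) : L) ^ k * x) = ((q : ℝ)⁻¹) ^ k * nrm q x := by
  rw [nrm_mul, nrm_pow, nrm_natCast_q]

/-- Partial sums of a `q`-adic series with integral coefficients are integral. -/
theorem nrm_sum_range_le (y : ℕ → L) (hy : ∀ k, nrm q (y k) ≤ 1) (k m : ℕ) :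
    nrm q (∑ j ∈ Finset.range m, ((q : ℕ) : L) ^ (k + j) * y (k + j)) ≤ ((q : ℝ)⁻¹) ^ k := by
  have hq1 : (1 : ℝ) < q := by exact_mod_cast (Fact.out : q.Prime).one_lt
  have hqi0 : (0 : ℝ) ≤ (q : ℝ)⁻¹ := by positivity
  have hqi1 : (q : ℝ)⁻¹ ≤ 1 := inv_le_one_of_one_le₀ hq1.le
  induction m with
  | zero =>
    rw [Finset.range_zero, Finset.sum_empty, nrm_zero]
    positivity
  | succ m ih =>
    rw [Finset.sum_range_succ]
    refine (nrm_add_le L _ _).trans (max_le ih ?_)
    rw [nrm_q_pow_mul, pow_add, mul_assoc]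
    refine mul_le_of_le_one_right (by positivity) ?_
    exact mul_le_one₀ (pow_le_one₀ hqi0 hqi1) (nrm_nonneg L _) (hy _)

section Complete

variable [FiniteDimensional ℚ_[q] F] [FiniteDimensional F L]

theorem properSpaceL : ProperSpace L := FiniteDimensional.proper ℚ_[q] L

theorem natCast_q_ne_zero : ((q : ℕ) : L) ≠ 0 := by
  intro h
  have h1 := nrm_natCast_q (q := q) L
  rw [h, nrm_zero] at h1
  have hq1 : (0 : ℝ) < q := by exact_mod_cast (Fact.out : q.Prime).pos
  have : (0 : ℝ) < (q : ℝ)⁻¹ := by positivity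
  linarith

/-- `q`-adic completeness of the unit ball, elementary form. -/
theorem exists_series_sum (y : ℕ → L) (hy : ∀ k, y k ∈ ballRing L) :
    ∃ z ∈ ballRing L, ∀ k, ∃ c ∈ ballRing L,
      z - ∑ j ∈ Finset.range k, ((q : ℕ) : L) ^ j * y j = ((q : ℕ) : L) ^ k * c := by
  have hprop : ProperSpace L := properSpaceL L
  have hq1 : (1 : ℝ) < q := by exact_mod_cast (Fact.out : q.Prime).one_lt
  have hqi0 : (0 : ℝ) < (q : ℝ)⁻¹ := by positivity
  have hqi1 : (q : ℝ)⁻¹ < 1 := inv_lt_one_of_one_lt₀ hq1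
  set s : ℕ → L := fun k => ∑ j ∈ Finset.range k, ((q : ℕ) : L) ^ j * y j with hs
  have hcauchy : CauchySeq s := by
    refine cauchySeq_of_le_geometric (q : ℝ)⁻¹ 1 hqi1 (fun k => ?_)
    rw [dist_eq_norm, hs]
    simp only [Finset.sum_range_succ, sub_add_cancel_left, norm_neg]
    rw [one_mul, ← nrm_eq_norm, nrm_q_pow_mul]
    exact mul_le_of_le_one_right (by positivity) (hy k)
  obtain ⟨z, hz⟩ := cauchySeq_tendsto_of_complete hcauchy
  have hdiff : ∀ k m, nrm q (s (m + k) - s k) ≤ ((q : ℝ)⁻¹) ^ k := by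
    intro k m
    have : s (m + k) - s k = ∑ j ∈ Finset.range m, ((q : ℕ) : L) ^ (k + j) * y (k + j) := by
      rw [hs]
      simp only
      rw [add_comm m k, Finset.sum_range_add, add_sub_cancel_left]
    rw [this]
    exact nrm_sum_range_le L y hy k m
  have hbound : ∀ k, nrm q (z - s k) ≤ ((q : ℝ)⁻¹) ^ k := by
    intro k
    have h1 : Tendsto (fun m => s (m + k)) atTop (𝓝 z) := (tendsto_add_atTop_iff_nat k).2 hz
    have h2 : Tendsto (fun m => ‖s (m + k) - s k‖) atTop (𝓝 ‖z - s k‖) :=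
      (h1.sub tendsto_const_nhds).norm
    exact le_of_tendsto' h2 (fun m => hdiff k m)
  have hp0 : ((q : ℕ) : L) ≠ 0 := natCast_q_ne_zero L
  refine ⟨z, ?_, fun k => ?_⟩
  · have := hbound 0
    simpa [hs, mem_ballRing] using this
  · refine ⟨(z - s k) / ((q : ℕ) : L) ^ k, ?_, ?_⟩
    · rw [mem_ballRing, nrm_div, nrm_pow, nrm_natCast_q]
      exact div_le_one_of_le₀ (hbound k) (by positivity)
    · rw [mul_div_cancel₀ _ (pow_ne_zero k hp0)]

/-- `q`-adic separatedness of the unit ball. -/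
theorem eq_zero_of_forall_dvd (z : L)
    (h : ∀ k : ℕ, ∃ c ∈ ballRing L, z = ((q : ℕ) : L) ^ k * c) : z = 0 := by
  have hq1 : (1 : ℝ) < q := by exact_mod_cast (Fact.out : q.Prime).one_lt
  by_contra hz
  have hzpos : 0 < nrm q z := by
    have : (z : PadicAlgCl q) ≠ 0 := fun h0 => hz (Subtype.ext h0)
    exact norm_pos_iff.2 this
  obtain ⟨k, hk⟩ := pow_unbounded_of_one_lt (nrm q z)⁻¹ hq1
  obtain ⟨c, hc, hzc⟩ := h k
  have h1 : nrm q z ≤ ((q : ℝ)⁻¹) ^ k := by
    rw [hzc, nrm_q_pow_mul]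
    exact mul_le_of_le_one_right (by positivity) hc
  have h2 : ((q : ℝ)⁻¹) ^ k < nrm q z := by
    rw [inv_pow]
    exact inv_lt_of_inv_lt₀ hzpos hk
  linarith

/-- Every element can be scaled into the unit ball. -/
theorem exists_pow_mul_mem (x : L) : ∃ k : ℕ, ((q : ℕ) : L) ^ k * x ∈ ballRing L := by
  have hq1 : (1 : ℝ) < q := by exact_mod_cast (Fact.out : q.Prime).one_lt
  obtain ⟨k, hk⟩ := pow_unbounded_of_one_lt (nrm q x) hq1
  refine ⟨k, ?_⟩
  rw [mem_ballRing, nrm_q_pow_mul, inv_pow, inv_mul_le_iff₀ (by positivity), mul_one]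
  exact hk.le

/-- A subgroup of the units containing `1 + q^M O` has finite index in the unit group. -/
theorem relIndex_ne_zero_of_ball (V : Subgroup Lˣ) (M : ℕ)
    (hV : ∀ u : Lˣ, (∃ e ∈ ballRing L, (u : L) = 1 + ((q : ℕ) : L) ^ M * e) → u ∈ V) :
    V.relIndex (unitGroup q L) ≠ 0 := by
  classical
  have hprop : ProperSpace L := properSpaceL L
  have hq1 : (1 : ℝ) < q := by exact_mod_cast (Fact.out : q.Prime).one_lt
  set ε : ℝ := ((q : ℝ)⁻¹) ^ M with hε
  have hε0 : 0 < ε := by positivity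
  have hc : IsCompact (Metric.closedBall (0 : L) 1) := isCompact_closedBall 0 1
  obtain ⟨t, -, htfin, hcov⟩ := finite_cover_balls_of_compact hc hε0
  have hp0 : ((q : ℕ) : L) ≠ 0 := natCast_q_ne_zero L
  -- for each centre choose a unit in its ball, if any
  let pick : t → unitGroup q L := fun x =>
    if h : ∃ u : unitGroup q L, ‖((u : Lˣ) : L) - (x : L)‖ < ε then Classical.choose h else 1
  have hpick : ∀ (x : t) (u : unitGroup q L), ‖((u : Lˣ) : L) - (x : L)‖ < ε →
      ‖(((pick x : unitGroup q L) : Lˣ) : L) - (x : L)‖ < ε := by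
    intro x u hu
    have h : ∃ u : unitGroup q L, ‖((u : Lˣ) : L) - (x : L)‖ < ε := ⟨u, hu⟩
    simp only [pick, dif_pos h]
    exact Classical.choose_spec h
  have hfinT : Finite t := htfin.to_subtype
  let φ : t → (unitGroup q L) ⧸ V.subgroupOf (unitGroup q L) := fun x => QuotientGroup.mk (pick x)
  have hsurj : Function.Surjective φ := by
    intro c
    induction c using QuotientGroup.induction_on with
    | H u =>
      have hu1 : nrm q ((u : Lˣ) : L) = 1 := u.2
      have hmem : ((u : Lˣ) : L) ∈ Metric.closedBall (0 : L) 1 := by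
        rw [mem_closedBall_zero_iff, ← nrm_eq_norm, hu1]
      obtain ⟨x, hx⟩ := Set.mem_iUnion.mp (hcov hmem)
      obtain ⟨hxt, hux⟩ := Set.mem_iUnion.mp hx
      rw [Metric.mem_ball, dist_eq_norm] at hux
      refine ⟨⟨x, hxt⟩, ?_⟩
      have hpx := hpick ⟨x, hxt⟩ u hux
      set w : unitGroup q L := pick ⟨x, hxt⟩ with hw
      have hw1 : nrm q ((w : Lˣ) : L) = 1 := w.2
      have hw0 : ((w : Lˣ) : L) ≠ 0 := Units.ne_zero _
      -- `‖u - w‖ < ε`
      have hdist : nrm q (((u : Lˣ) : L) - ((w : Lˣ) : L)) ≤ ε := by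
        have e1 : ((u : Lˣ) : L) - ((w : Lˣ) : L)
            = (((u : Lˣ) : L) - x) + -(((w : Lˣ) : L) - x) := by ring
        rw [e1]
        refine (nrm_add_le L _ _).trans (max_le hux.le ?_)
        rw [nrm_neg]
        exact hpx.le
      show (QuotientGroup.mk w : (unitGroup q L) ⧸ V.subgroupOf (unitGroup q L)) = QuotientGroup.mk u
      rw [QuotientGroup.eq, Subgroup.mem_subgroupOf]
      apply hV
      refine ⟨(((u : Lˣ) : L) - ((w : Lˣ) : L)) / (((w : Lˣ) : L) * ((q : ℕ) : L) ^ M), ?_, ?_⟩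
      · rw [mem_ballRing, nrm_div, nrm_mul, hw1, one_mul, nrm_pow, nrm_natCast_q]
        exact div_le_one_of_le₀ hdist (by positivity)
      · have : (((w⁻¹ * u : unitGroup q L) : Lˣ) : L) = ((w : Lˣ) : L)⁻¹ * ((u : Lˣ) : L) := by
          simp
        rw [this]
        field_simp
        ring
  have hfinQ : Finite ((unitGroup q L) ⧸ V.subgroupOf (unitGroup q L)) :=
    Finite.of_surjective φ hsurj
  exact Subgroup.index_ne_zero_of_finite

end Complete

/-- **The unit core** in the `PadicAlgCl q` model. -/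
theorem unitCore (q : ℕ) [Fact q.Prime] : UnitCore q := by
  intro F _ _ _ _ _ L _ _ σ hσ
  have hq0 : ((q : ℕ) : F) ≠ 0 := by
    intro h
    have h1 : ((q : ℕ) : L) = 0 := by
      rw [← map_natCast (algebraMap F L), h, map_zero]
    exact natCast_q_ne_zero L h1
  have he : algebraMap F L ((q : ℕ) : F) = ((q : ℕ) : L) := map_natCast _ _
  have hq1 : (1 : ℝ) < q := by exact_mod_cast (Fact.out : q.Prime).one_lt
  obtain ⟨M, V, hVO, hVG, hVM, hV0, hV1⟩ :=
    Fermat.Agent.S55.H69.exists_unit_subgroup_of_galois (F := F) (L := L) (ballRing L)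
      ((q : ℕ) : F) hq0
      (by
        rw [he, mem_ballRing, nrm_natCast_q]
        exact inv_le_one_of_one_le₀ hq1.le)
      (fun g x hx => by
        rw [mem_ballRing] at hx ⊢
        rw [nrm_algEquiv]; exact hx)
      (fun x => by
        obtain ⟨k, hk⟩ := exists_pow_mul_mem L x
        exact ⟨k, by rw [he]; exact hk⟩)
      (fun y hy => by
        obtain ⟨z, hz, hzk⟩ := exists_series_sum L y hy
        exact ⟨z, hz, fun k => by rw [he]; exact hzk k⟩)
      (fun z _ hz => eq_zero_of_forall_dvd L z (fun k => by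
        obtain ⟨c, hc, hzc⟩ := hz k
        exact ⟨c, hc, by rw [← he]; exact hzc⟩))
  refine ⟨V, ?_, ?_, fun v hv => hVG σ v hv, ?_, ?_⟩
  · intro u hu
    obtain ⟨h1, h2⟩ := hVO u hu
    rw [mem_ballRing] at h1 h2
    rw [mem_unitGroup_iff]
    have h3 : nrm q ((u : L)) * nrm q (((u⁻¹ : Lˣ) : L)) = 1 := by
      rw [← nrm_mul, Units.mul_inv, nrm_one]
    have h4 : 0 ≤ nrm q (((u⁻¹ : Lˣ) : L)) := nrm_nonneg L _
    have h5 : 0 ≤ nrm q ((u : L)) := nrm_nonneg L _
    nlinarith
  · exact relIndex_ne_zero_of_ball L V M (fun u hu => hVM u (by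
      obtain ⟨e, he1, he2⟩ := hu
      exact ⟨e, he1, by rw [he]; exact he2⟩))
  · intro v hv hfix
    refine hV0 v hv (fun g => ?_)
    obtain ⟨y, hy⟩ := mem_range_of_fixed σ hσ _ hfix
    rw [← hy]
    exact g.commutes y
  · intro v hv hnm
    obtain ⟨w, hw, hwv⟩ := hV1 σ hσ v hv hnm
    refine ⟨w, hw, ?_⟩
    rw [← hwv, div_mul_cancel₀ _ (Units.ne_zero w)]

/-- **The local norm index** (C3 leaf L4), from the uniformiser leaf alone. -/
theorem leafNormIndex_of_unif (q : ℕ) [Fact q.Prime] (hUnif : LeafUnif q) : LeafNormIndex q :=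
  leafNormIndex_of q hUnif (unitCore q)

end Fermat.Agent.S55.H98
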