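/-
S55 (Poitou–Tate), package C3, leaf L4: THE LOCAL NORM INDEX, verbatim leaf of `H66.LocalSpec`.

`leafNormIndex q : H66.LeafNormIndex q` — for every cyclic extension `L/F` of embedded local fields
(`PadicAlgCl q` model), `(Fˣ : N_{L/F} Lˣ) = [L : F]`.

Assembly (helper98): `leafNormIndex_of_unif` (Herbrand calculus + Hilbert 90 + helper69's unit
cohomology instantiated in the model) applied to helper66's landed `leafUnif`.
-/
import Fermat.Agent.S55.H98.UnitCoreInst
import Fermat.Agent.S55.H66.LocalBridge

set_option autoImplicit false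

namespace Fermat.Agent.S55.H98

/-- **C3 leaf L4 (local norm index), verbatim.** -/
theorem leafNormIndex (q : ℕ) [Fact q.Prime] : Fermat.Agent.S55.H66.LeafNormIndex q :=
  leafNormIndex_of_unif q (Fermat.Agent.S55.H66.leafUnif q)

end Fermat.Agent.S55.H98
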