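/-
S55 (Poitou–Tate), Program C — the local Kummer norm index at a finite place of a number field
(helper98): the `FinPlace` form of `H98.kummerNormGroup_index`, in the embedding model of
`H88.SemiLocalSpec` (`v.field = ℚ_q(τ_v k) ⊆ PadicAlgCl q`).

If `k ∋ μ_p` and the image of `g ∈ kˣ` in the completion `k_v` is not a `p`-th power, the local
Kummer norm group `kummerNormGroup p (g_v) ≤ k_vˣ` has index `p` (so it is not `⊤`).
This is the local input of C6 (COUNT) / (CLASS) (`kNl k p g v ≠ ⊤`).
-/
import Fermat.Agent.S55.H98.KummerIndex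
import Fermat.Agent.S55.H88.SemiLocalSpec

set_option autoImplicit false

namespace Fermat.Agent.S55.H98

open Fermat.Agent.S55.H88

attribute [local instance] factOfPrimes

/-- The completion at a finite place is finite over `ℚ_q`. -/
theorem finiteDimensional_finPlace_field {k : Type*} [Field k] [NumberField k] (v : FinPlace k) :
    FiniteDimensional ℚ_[(v.1 : ℕ)] v.field :=
  finiteDimensional_locField (v.1 : ℕ) v.emb

/-- **Local Kummer norm index at a finite place.** -/
theorem finPlace_kummerNormGroup_index {k : Type*} [Field k] [NumberField k] {p : ℕ}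
    (hp : p.Prime) {ζ : k} (hζ : IsPrimitiveRoot ζ p) (g : kˣ) (v : FinPlace k)
    (hg : ∀ b : v.field, b ^ p ≠ ((finLoc k v g : finX k v) : v.field)) :
    (Fermat.Agent.S55.H8.kummerNormGroup p ((finLoc k v g : finX k v) : v.field)).index = p := by
  have hfd := finiteDimensional_finPlace_field v
  exact kummerNormGroup_index (v.1 : ℕ) v.field hp
    (hζ.map_of_injective (locEmb (v.1 : ℕ) v.emb).injective) hg

/-- The local Kummer norm group at a finite place where `g` is not a `p`-th power is proper. -/
theorem finPlace_kummerNormGroup_ne_top {k : Type*} [Field k] [NumberField k] {p : ℕ}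
    (hp : p.Prime) {ζ : k} (hζ : IsPrimitiveRoot ζ p) (g : kˣ) (v : FinPlace k)
    (hg : ∀ b : v.field, b ^ p ≠ ((finLoc k v g : finX k v) : v.field)) :
    Fermat.Agent.S55.H8.kummerNormGroup p ((finLoc k v g : finX k v) : v.field) ≠ ⊤ := by
  have hfd := finiteDimensional_finPlace_field v
  exact kummerNormGroup_ne_top (v.1 : ℕ) v.field hp
    (hζ.map_of_injective (locEmb (v.1 : ℕ) v.emb).injective) hg

end Fermat.Agent.S55.H98
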