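/-
Program C (S55), sub-package LOC of C9b (designer helper66), leaf (LOC-B):
`conjShapiro : H66.ConjShapiroStatement p q S` — for a level 2-cocycle `z` of `Gal(ℚ̄/ℚ)` with
values in `𝔽_p[Gal(ℚ̄/ℚ) ⧸ Γ]` and `g ∈ Gal(ℚ̄/ℚ)`, the transported Shapiro restriction of `z`
and the coefficient at `gΓ` of the localisation of `z` differ by the coboundary of a level
function.  (helper98; route of `H66/LocSpec.lean`: `κ a = z (g, g⁻¹ a g) - z (a, g)`.)
-/
import Fermat.Agent.S55.H66.LocSpec
import Fermat.Agent.S55.H17.ShapiroRes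

set_option autoImplicit false

open CategoryTheory groupCohomology

noncomputable section

namespace Fermat.Agent.S55.H98

open Fermat.Agent.S55.H49 Fermat.Agent.S55.H26 Fermat.Agent.S55.H66

section Generic

variable {G : Type} [Group G] {k : Type} [Field k]

/-- The conjugation homotopy for inhomogeneous 2-cocycles:
`g • c (g⁻¹ a g, g⁻¹ b g) - c (a, b) = (dκ) (a, b)` with `κ a = c (g, g⁻¹ a g) - c (a, g)`. -/
theorem conj_homotopy (M : Rep.{0} k G) (c : G × G → M)
    (hc : ∀ a b d : G, M.ρ a (c (b, d)) - c (a * b, d) + c (a, b * d) - c (a, b) = 0)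
    (g a b : G) :
    M.ρ g (c (g⁻¹ * a * g, g⁻¹ * b * g)) - c (a, b) =
      M.ρ a (c (g, g⁻¹ * b * g) - c (b, g)) - (c (g, g⁻¹ * (a * b) * g) - c (a * b, g)) +
        (c (g, g⁻¹ * a * g) - c (a, g)) := by
  have h1 := hc g (g⁻¹ * a * g) (g⁻¹ * b * g)
  have h2 := hc a g (g⁻¹ * b * g)
  have h3 := hc a b g
  have e1 : g * (g⁻¹ * a * g) = a * g := by group
  have e2 : g⁻¹ * a * g * (g⁻¹ * b * g) = g⁻¹ * (a * b) * g := by group
  have e3 : g * (g⁻¹ * b * g) = b * g := by group
  rw [e1, e2] at h1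
  rw [e3] at h2
  rw [map_sub]
  linear_combination (norm := abel) h1 - h2 + h3

/-- The coefficient of `x • v` at `y` is the coefficient of `v` at `x⁻¹ • y`. -/
theorem permCoeff_ρ (H : Subgroup G) (x : G) (v : permRep k H) (y : G ⧸ H) :
    permCoeff H ((permRep k H).ρ x v) y = permCoeff H v (x⁻¹ • y) :=
  Representation.coeff_ofMulAction (k := k) (G := G) (H := G ⧸ H) x v y

theorem permCoeff_ρ_self (H : Subgroup G) (g : G) (v : permRep k H) :
    permCoeff H ((permRep k H).ρ g v) ((g : G) : G ⧸ H) = permCoeff H v ((1 : G) : G ⧸ H) := by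
  rw [permCoeff_ρ]
  congr 1
  show ((g⁻¹ * g : G) : G ⧸ H) = ((1 : G) : G ⧸ H)
  rw [inv_mul_cancel]

theorem permCoeff_ρ_of_conj_mem (H : Subgroup G) (g a : G) (ha : g⁻¹ * a * g ∈ H)
    (v : permRep k H) :
    permCoeff H ((permRep k H).ρ a v) ((g : G) : G ⧸ H) = permCoeff H v ((g : G) : G ⧸ H) := by
  rw [permCoeff_ρ]
  congr 1
  show ((a⁻¹ * g : G) : G ⧸ H) = ((g : G) : G ⧸ H)
  rw [QuotientGroup.eq]
  have e : (a⁻¹ * g)⁻¹ * g = g⁻¹ * a * g := by group
  rw [e]
  exact ha

end Generic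

/-- **Leaf (LOC-B)**: the conjugation homotopy for the Shapiro restriction. -/
theorem conjShapiro (p : ℕ) [Fact p.Prime] (q : ℕ) [Fact q.Prime] (S : Finset Nat.Primes) :
    ConjShapiroStatement p q S := by
  intro L K z g
  have hlc : IsLC (globalDatum S) (permRep (ZMod p) L.fixingSubgroup) (lcVal z) :=
    H41.isLC_lcValC _ _ z.1
  have hcyc : (inhomogeneousCochains.d (permRep (ZMod p) L.fixingSubgroup) 2).hom (lcVal z) = 0 :=
    (H41.mem_cyc_lc_iff _ _ z.1).1 z.2
  let c : GQ × GQ → permRep (ZMod p) L.fixingSubgroup := fun x => lcVal z ![x.1, x.2]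
  have hc : ∀ a b d : GQ, (permRep (ZMod p) L.fixingSubgroup).ρ a (c (b, d)) - c (a * b, d)
      + c (a, b * d) - c (a, b) = 0 := by
    intro a b d
    have h0 := congrFun hcyc ![a, b, d]
    rw [← H41.toFin2_vec (lcVal z), H41.d_toFin2_apply] at h0
    exact h0
  let κ : GQ → permRep (ZMod p) L.fixingSubgroup := fun a => c (g, g⁻¹ * a * g) - c (a, g)
  refine ⟨fun h => permCoeff L.fixingSubgroup (κ (localGaloisToGlobal q (h : GalQ q)))
    ((g : GQ) : GQ ⧸ L.fixingSubgroup), ?_, ?_⟩
  · obtain ⟨F, hF, hN, h1, -⟩ := hlc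
    refine ⟨F, hF.1, fun h n hn => ?_⟩
    have hn' : localGaloisToGlobal q (n : GalQ q) ∈ F.fixingSubgroup := hn
    show permCoeff L.fixingSubgroup (κ (localGaloisToGlobal q ((h * n : _) : GalQ q))) _ =
      permCoeff L.fixingSubgroup (κ (localGaloisToGlobal q (h : GalQ q))) _
    congr 1
    have e0 : localGaloisToGlobal q ((h * n : (baseAt L K q g).fixingSubgroup) : GalQ q) =
        localGaloisToGlobal q (h : GalQ q) * localGaloisToGlobal q (n : GalQ q) := by
      rw [Subgroup.coe_mul, map_mul]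
    rw [e0]
    set a := localGaloisToGlobal q (h : GalQ q) with ha
    set m := localGaloisToGlobal q (n : GalQ q) with hm
    have hconj : g⁻¹ * m * g ∈ F.fixingSubgroup := by
      have := hN.conj_mem m hn' g⁻¹
      simpa using this
    show lcVal z ![g, g⁻¹ * (a * m) * g] - lcVal z ![a * m, g] =
      lcVal z ![g, g⁻¹ * a * g] - lcVal z ![a, g]
    have e1 : (![g, g⁻¹ * (a * m) * g] : Fin 2 → GQ) = ![g, g⁻¹ * a * g] * ![1, g⁻¹ * m * g] := by
      funext i
      fin_cases i
      · simp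
      · show g⁻¹ * (a * m) * g = g⁻¹ * a * g * (g⁻¹ * m * g)
        group
    have e2 : (![a * m, g] : Fin 2 → GQ) = ![a, g] * ![m, 1] := by
      funext i
      fin_cases i
      · rfl
      · simp
    rw [e1, e2, h1 _ _ (fun i => by
      fin_cases i
      · exact Subgroup.one_mem _
      · exact hconj), h1 _ _ (fun i => by
      fin_cases i
      · exact hn'
      · exact Subgroup.one_mem _)]
  · intro h₁ h₂
    set a := localGaloisToGlobal q (h₁ : GalQ q) with ha
    set b := localGaloisToGlobal q (h₂ : GalQ q) with hb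
    have hmem₁ : g⁻¹ * a * g ∈ L.fixingSubgroup := conj_mem_fixingSubgroup L K q g h₁ h₁.2
    have key := conj_homotopy (permRep (ZMod p) L.fixingSubgroup) c hc g a b
    have key' := congrArg (fun v : permRep (ZMod p) L.fixingSubgroup =>
      permCoeff L.fixingSubgroup v ((g : GQ) : GQ ⧸ L.fixingSubgroup)) key
    simp only [] at key'
    rw [H17.permCoeff_sub, H17.permCoeff_add, H17.permCoeff_sub, permCoeff_ρ_self,
      permCoeff_ρ_of_conj_mem _ _ _ hmem₁] at key'
    have e0 : localGaloisToGlobal q ((h₁ * h₂ : (baseAt L K q g).fixingSubgroup) : GalQ q) =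
        a * b := by
      rw [Subgroup.coe_mul, map_mul]
    show permCoeff L.fixingSubgroup (lcVal z ![g⁻¹ * a * g, g⁻¹ * b * g]) _ -
        permCoeff L.fixingSubgroup (lcVal z ![a, b]) _ =
      permCoeff L.fixingSubgroup (κ b) _ -
        permCoeff L.fixingSubgroup (κ (localGaloisToGlobal q
          ((h₁ * h₂ : (baseAt L K q g).fixingSubgroup) : GalQ q))) _ +
        permCoeff L.fixingSubgroup (κ a) _
    rw [e0]
    exact key'

end Fermat.Agent.S55.H98

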