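/-
Program C (S55), package C9b, leaf (HL-d) FROB-CMP, type-level core (helper98):
the image in `Gal(K/k)` of a local Frobenius of `K_w / k_v` satisfies the Frobenius congruence
`σ x ≡ x ^ #κ(v)` modulo the place `w` (given by the embedding `τ' : K → Ω`) on `τ'`-integral
elements of `K`.
-/
import Fermat.Agent.S55.H88.LayerDefs

set_option autoImplicit false

noncomputable section

namespace Fermat.Agent.S55.H98

open Fermat.Agent.S55.H88

variable (q : ℕ) [Fact q.Prime]

/-- The image in `Gal(K/k)` of a local Frobenius `φ` of `K_w / k_v` satisfies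
`‖τ' (σ x - x ^ N)‖ < 1` for every `x : K` with `‖τ' x‖ ≤ 1`, `N = #κ(k_v)`. -/
theorem locGalToGlobal_frob_congr (k : Type) {K : Type} [Field k] [Field K] [Algebra k K]
    [Normal k K] (τ' : K →+* PadicAlgCl q)
    (φ : locExt q k τ' ≃ₐ[locBase q k τ'] locExt q k τ')
    (hφ : H66.IsFrob q (locExt q k τ') φ) (x : K) (hx : ‖τ' x‖ ≤ 1) :
    ‖τ' (locGalToGlobal q k τ' φ x - x ^ H66.resCard q (locBase q k τ'))‖ < 1 := by
  have h1 := hφ (locExtEmb q k τ' x) hx
  rw [locGalToGlobal_spec] at h1
  have e : (algebraMap (locExt q k τ') (PadicAlgCl q))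
      (locExtEmb q k τ' (locGalToGlobal q k τ' φ x) -
        locExtEmb q k τ' x ^ H66.resCard q (locBase q k τ')) =
      τ' (locGalToGlobal q k τ' φ x - x ^ H66.resCard q (locBase q k τ')) := by
    rw [map_sub, map_pow, map_sub, map_pow]
    rfl
  have h2 : H66.nrm q (locExtEmb q k τ' (locGalToGlobal q k τ' φ x) -
      locExtEmb q k τ' x ^ H66.resCard q (locBase q k τ')) =
      ‖τ' (locGalToGlobal q k τ' φ x - x ^ H66.resCard q (locBase q k τ'))‖ := by
    unfold H66.nrm
    rw [e]
  rw [← h2]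
  exact h1

end Fermat.Agent.S55.H98
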