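/-
Program C (S55), package C9b, leaf (HL-d) FROB-CMP, `ℚ̄`-form (helper98):
for an embedding `j : ℚ̄ → Ω = PadicAlgCl q`, a number field `F ⊆ ℚ̄`, a finite normal layer `K/F`
in which the unit ball of `j` is unramified, the image in `Gal(K/F)` of a local Frobenius of
`K_w / F_v` (`w` = the place of `K` given by `j`) is the restriction to `K` of every global
Frobenius `σ` at the unit ball of `j` (`σ b ≡ b ^ N`, `N = #κ(F_v)`).
-/
import Fermat.Agent.S55.H11.DictVS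
import Fermat.Agent.S55.H56.Frobenius
import Fermat.Agent.S55.H98.FrobCmp

set_option autoImplicit false

noncomputable section

namespace Fermat.Agent.S55.H98

open Fermat.Agent.S55.H88 Fermat.Agent.S54.H94
open scoped Pointwise

local notation "Qb" => AlgebraicClosure ℚ
local notation "Γ" => (AlgebraicClosure ℚ ≃ₐ[ℚ] AlgebraicClosure ℚ)
local notation "𝓑" => integralClosure ℤ (AlgebraicClosure ℚ)

/-- **(HL-d) FROB-CMP.**  The decomposition-group image of the local Frobenius is the global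
Frobenius on an unramified layer. -/
theorem locGalToGlobal_frob_eq (q : ℕ) [Fact q.Prime] (j : Qb →+* PadicAlgCl q)
    (F : IntermediateField ℚ Qb) (K : IntermediateField ↥F Qb) [Normal ↥F ↥K]
    [FiniteDimensional ℚ ↥(K.restrictScalars ℚ)]
    (hIK : (H11.ballSub q j).inertiaSubgroupIn ℚ ≤ (K.restrictScalars ℚ).fixingSubgroup)
    (φ : locExt q ↥F (j.comp (algebraMap ↥K Qb)) ≃ₐ[locBase q ↥F (j.comp (algebraMap ↥K Qb))]
      locExt q ↥F (j.comp (algebraMap ↥K Qb)))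
    (hφ : H66.IsFrob q (locExt q ↥F (j.comp (algebraMap ↥K Qb))) φ)
    {N : ℕ} (hN : 0 < N)
    (hres : H66.resCard q (locBase q ↥F (j.comp (algebraMap ↥K Qb))) = N)
    (σ : Γ) (hσ : ∀ b : 𝓑, σ • b - b ^ N ∈ primeB (H11.ballSub q j)) (x : ↥K) :
    ((locGalToGlobal q ↥F (j.comp (algebraMap ↥K Qb)) φ x : ↥K) : Qb) = σ (x : Qb) := by
  obtain ⟨χ, hχ⟩ := AlgEquiv.restrictNormalHom_surjective (F := ↥F) (K₁ := ↥K) Qb
    (locGalToGlobal q ↥F (j.comp (algebraMap ↥K Qb)) φ)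
  let ψ : Γ := χ.restrictScalars ℚ
  have hψK : ∀ y : ↥K, ψ (y : Qb) =
      ((locGalToGlobal q ↥F (j.comp (algebraMap ↥K Qb)) φ y : ↥K) : Qb) := by
    intro y
    rw [← hχ]
    exact (AlgEquiv.restrictNormal_commutes χ ↥K y).symm
  have hψ : ∀ b : 𝓑, (b : Qb) ∈ K.restrictScalars ℚ →
      ψ • b - b ^ N ∈ primeB (H11.ballSub q j) := by
    intro b hb
    rw [mem_primeB_iff, H11.mem_nonunits_ballSub]
    have hb1 : ‖(j.comp (algebraMap ↥K Qb)) ⟨(b : Qb), hb⟩‖ ≤ 1 :=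
      H88.norm_le_one_of_isIntegral q (map_isIntegral_int j b.2)
    have h1 := locGalToGlobal_frob_congr q ↥F (j.comp (algebraMap ↥K Qb)) φ hφ ⟨(b : Qb), hb⟩ hb1
    rw [hres] at h1
    have e : (((ψ • b - b ^ N : 𝓑) : 𝓑) : Qb) =
        algebraMap ↥K Qb (locGalToGlobal q ↥F (j.comp (algebraMap ↥K Qb)) φ ⟨(b : Qb), hb⟩ -
          ⟨(b : Qb), hb⟩ ^ N) := by
      rw [map_sub, map_pow]
      have e1 := hψK ⟨(b : Qb), hb⟩
      show ψ (b : Qb) - (b : Qb) ^ N = _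
      rw [e1]
      rfl
    rw [e]
    exact h1
  have key := H56.frobenius_restrict_eq (K.restrictScalars ℚ) hIK hN σ ψ hσ hψ (x : Qb) x.2
  rw [← key]
  exact (hψK x).symm

/-- **(HL-d) FROB-CMP**, in the shape of `H56.exists_frobenius`: `N = #(𝓞 F ⧸ centerInt F A)`,
`A` the unit ball of `j`, with (HL-a) `resCard (F_v) = #(𝓞 F ⧸ 𝔭_v)` as a hypothesis. -/
theorem locGalToGlobal_frob_eq_of_resCard (q : ℕ) [Fact q.Prime] (j : Qb →+* PadicAlgCl q)
    (F : IntermediateField ℚ Qb) [NumberField ↥F] (K : IntermediateField ↥F Qb) [Normal ↥F ↥K]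
    [FiniteDimensional ℚ ↥(K.restrictScalars ℚ)]
    (hIK : (H11.ballSub q j).inertiaSubgroupIn ℚ ≤ (K.restrictScalars ℚ).fixingSubgroup)
    (φ : locExt q ↥F (j.comp (algebraMap ↥K Qb)) ≃ₐ[locBase q ↥F (j.comp (algebraMap ↥K Qb))]
      locExt q ↥F (j.comp (algebraMap ↥K Qb)))
    (hφ : H66.IsFrob q (locExt q ↥F (j.comp (algebraMap ↥K Qb))) φ)
    (hHLa : H66.resCard q (locField q (j.comp (algebraMap ↥F Qb))) =
      Nat.card (NumberField.RingOfIntegers ↥F ⧸ H83.primeOfEmb q (j.comp (algebraMap ↥F Qb))))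
    (hpos : 0 < Nat.card (NumberField.RingOfIntegers ↥F ⧸ H56.centerInt F (H11.ballSub q j)))
    (σ : Γ)
    (hσ : ∀ b : 𝓑, σ • b - b ^ Nat.card (NumberField.RingOfIntegers ↥F ⧸
      H56.centerInt F (H11.ballSub q j)) ∈ primeB (H11.ballSub q j)) (x : ↥K) :
    ((locGalToGlobal q ↥F (j.comp (algebraMap ↥K Qb)) φ x : ↥K) : Qb) = σ (x : Qb) := by
  refine locGalToGlobal_frob_eq q j F K hIK φ hφ hpos ?_ σ hσ x
  have e : (j.comp (algebraMap ↥K Qb)).comp (algebraMap ↥F ↥K) = j.comp (algebraMap ↥F Qb) :=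
    RingHom.ext fun _ => rfl
  show H66.resCard q (locField q ((j.comp (algebraMap ↥K Qb)).comp (algebraMap ↥F ↥K))) = _
  rw [e, hHLa, H11.centerInt_ballSub]

end Fermat.Agent.S55.H98

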