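/-
S55 (Poitou–Tate), Program C — the local Hilbert symbol, part 1 (helper98): the Kummer field
`kumField q F p a = F(a^{1/p}) ⊆ Ω` (splitting field of `X^p - a` inside `Ω = PadicAlgCl q`) of an
embedded local field `F ∋ μ_p`, and its canonical generator `σ_a` (`σ_a β = ζ β` for every
`p`-th root `β` of `a`).  Mathlib only.
-/
import Mathlib

set_option autoImplicit false

open Polynomial IntermediateField

noncomputable section

namespace Fermat.Agent.S55.H98

section Field

variable (q : ℕ) [Fact q.Prime] {F : Type} [Field F] [Algebra F (PadicAlgCl q)]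

/-- The splitting field of `X^p - a` inside `Ω`. -/
def kumField (p : ℕ) (a : F) : IntermediateField F (PadicAlgCl q) :=
  IntermediateField.adjoin F ((X ^ p - C a : F[X]).rootSet (PadicAlgCl q))

instance kumField_isSplittingField (p : ℕ) (a : F) :
    (X ^ p - C a : F[X]).IsSplittingField F (kumField q p a) :=
  IntermediateField.adjoin_rootSet_isSplittingField (IsAlgClosed.splits _)

instance kumField_normal (p : ℕ) (a : F) : Normal F (kumField q p a) :=
  Normal.of_isSplittingField (X ^ p - C a : F[X])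

instance kumField_finiteDimensional (p : ℕ) (a : F) : FiniteDimensional F (kumField q p a) :=
  Polynomial.IsSplittingField.finiteDimensional (kumField q p a) (X ^ p - C a : F[X])

variable {q}

theorem mem_kumField_of_pow_eq {p : ℕ} (hp : p ≠ 0) {a : F} {β : PadicAlgCl q}
    (hβ : β ^ p = algebraMap F (PadicAlgCl q) a) : β ∈ kumField q p a := by
  refine IntermediateField.subset_adjoin F _ ?_
  rw [mem_rootSet_of_ne (X_pow_sub_C_ne_zero (Nat.pos_of_ne_zero hp) a)]
  simp [hβ]

/-- `Ω` contains a `p`-th root of `a`, and it lies in the Kummer field. -/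
theorem exists_root_kumField {p : ℕ} (hp : p ≠ 0) (a : F) :
    ∃ α : kumField q p a, α ^ p = algebraMap F (kumField q p a) a := by
  obtain ⟨β, hβ⟩ := IsAlgClosed.exists_pow_nat_eq (algebraMap F (PadicAlgCl q) a)
    (Nat.pos_of_ne_zero hp)
  exact ⟨⟨β, mem_kumField_of_pow_eq hp hβ⟩, Subtype.ext hβ⟩

end Field

section Gen

variable (q : ℕ) [Fact q.Prime] {F : Type} [Field F] [Algebra F (PadicAlgCl q)]

/-- `σ` is the Kummer generator of `F(a^{1/p})/F` relative to `ζ`: `σ β = ζ β` for every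
`p`-th root `β` of `a`. -/
def IsKumGen (p : ℕ) (ζ a : F) (σ : kumField q p a ≃ₐ[F] kumField q p a) : Prop :=
  ∀ β : kumField q p a, β ^ p = algebraMap F (kumField q p a) a →
    σ β = algebraMap F (kumField q p a) ζ * β

variable {q}
variable {p : ℕ} {ζ a : F}

theorem kumField_finrank (hp : p.Prime) (hζ : IsPrimitiveRoot ζ p) (ha : ∀ c : F, c ^ p ≠ a) :
    Module.finrank F (kumField q p a) = p :=
  finrank_of_isSplittingField_X_pow_sub_C ⟨ζ, (mem_primitiveRoots hp.pos).2 hζ⟩
    (X_pow_sub_C_irreducible_of_prime hp ha) (kumField q p a)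

theorem kumField_isGalois (hp : p.Prime) (hζ : IsPrimitiveRoot ζ p) (ha : ∀ c : F, c ^ p ≠ a) :
    IsGalois F (kumField q p a) :=
  isGalois_of_isSplittingField_X_pow_sub_C ⟨ζ, (mem_primitiveRoots hp.pos).2 hζ⟩
    (X_pow_sub_C_irreducible_of_prime hp ha) (kumField q p a)

/-- Existence of the Kummer generator; it generates the Galois group. -/
theorem exists_isKumGen (hp : p.Prime) (hζ : IsPrimitiveRoot ζ p) (ha : ∀ c : F, c ^ p ≠ a) :
    ∃ σ : kumField q p a ≃ₐ[F] kumField q p a, IsKumGen q p ζ a σ ∧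
      ∀ τ : kumField q p a ≃ₐ[F] kumField q p a, τ ∈ Subgroup.zpowers σ := by
  have : NeZero p := ⟨hp.ne_zero⟩
  have H : Irreducible (X ^ p - C a : F[X]) := X_pow_sub_C_irreducible_of_prime hp ha
  let e := autEquivZmod H (kumField q p a) hζ
  refine ⟨e.symm (Multiplicative.ofAdd (1 : ZMod p)), fun β hβ => ?_, fun τ => ?_⟩
  · have h := autEquivZmod_symm_apply_natCast H (kumField q p a) hβ hζ 1
    rw [Nat.cast_one, pow_one, Algebra.smul_def] at h
    exact h
  · obtain ⟨k, hk⟩ : ∃ k : ℕ, e τ = Multiplicative.ofAdd (k : ZMod p) :=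
      ⟨(Multiplicative.toAdd (e τ)).val, by rw [ZMod.natCast_zmod_val]; rfl⟩
    refine Subgroup.mem_zpowers_iff.2 ⟨k, ?_⟩
    apply e.injective
    rw [zpow_natCast, map_pow, MulEquiv.apply_symm_apply, hk, ← ofAdd_nsmul, nsmul_eq_mul,
      mul_one]

end Gen

end Fermat.Agent.S55.H98

namespace Fermat.Agent.S55.H98

section Gen2

variable {q : ℕ} [Fact q.Prime] {F : Type} [Field F] [Algebra F (PadicAlgCl q)]
variable {p : ℕ} {ζ a : F}

theorem IsKumGen.pow_apply {σ : kumField q p a ≃ₐ[F] kumField q p a} (hσ : IsKumGen q p ζ a σ)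
    {β : kumField q p a} (hβ : β ^ p = algebraMap F (kumField q p a) a) (k : ℕ) :
    (σ ^ k) β = algebraMap F (kumField q p a) (ζ ^ k) * β := by
  induction k with
  | zero => simp
  | succ k ih =>
    rw [pow_succ, AlgEquiv.mul_apply, hσ β hβ, map_mul, AlgEquiv.commutes, ih, pow_succ, map_mul]
    ring

/-- The Kummer generator is unique. -/
theorem IsKumGen.unique (hp : p.Prime) (hζ : IsPrimitiveRoot ζ p) (ha : ∀ c : F, c ^ p ≠ a)
    {σ σ' : kumField q p a ≃ₐ[F] kumField q p a} (hσ : IsKumGen q p ζ a σ)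
    (hσ' : IsKumGen q p ζ a σ') : σ = σ' := by
  obtain ⟨α, hα⟩ := exists_root_kumField (q := q) hp.ne_zero a
  have H : Irreducible (X ^ p - C a : F[X]) := X_pow_sub_C_irreducible_of_prime hp ha
  have htop := Algebra.adjoin_root_eq_top_of_isSplittingField
    ⟨ζ, (mem_primitiveRoots hp.pos).2 hζ⟩ H hα
  have h1 : (σ : kumField q p a →ₐ[F] kumField q p a) = σ' := by
    refine AlgHom.ext_of_adjoin_eq_top htop ?_
    intro x hx
    have hx' : x = α := hx
    rw [hx']
    exact (hσ α hα).trans (hσ' α hα).symm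
  exact AlgEquiv.ext fun x => DFunLike.congr_fun h1 x

/-- If `a` is a nonzero `p`-th power there is no Kummer generator. -/
theorem not_isKumGen_of_pow (hp : p.Prime) (hζ : IsPrimitiveRoot ζ p) {c : F} (hc : c ≠ 0)
    (hca : c ^ p = a) (σ : kumField q p a ≃ₐ[F] kumField q p a) : ¬ IsKumGen q p ζ a σ := by
  intro hσ
  have h1 := hσ (algebraMap F (kumField q p a) c) (by rw [← map_pow, hca])
  rw [AlgEquiv.commutes, ← map_mul] at h1
  have h2 : c = ζ * c := (algebraMap F (kumField q p a)).injective h1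
  have h3 : ζ = 1 := by
    have h4 : (ζ - 1) * c = 0 := by rw [sub_mul, one_mul, ← h2, sub_self]
    rcases mul_eq_zero.1 h4 with h5 | h5
    · exact sub_eq_zero.1 h5
    · exact absurd h5 hc
  exact hζ.ne_one hp.one_lt h3

/-- A generator of a group of prime order `p` has order `p`. -/
theorem orderOf_kumGen (hp : p.Prime) (hζ : IsPrimitiveRoot ζ p) (ha : ∀ c : F, c ^ p ≠ a)
    {σ : kumField q p a ≃ₐ[F] kumField q p a}
    (hgen : ∀ τ : kumField q p a ≃ₐ[F] kumField q p a, τ ∈ Subgroup.zpowers σ) :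
    orderOf σ = p := by
  have := kumField_isGalois (q := q) hp hζ ha
  rw [orderOf_eq_card_of_forall_mem_zpowers hgen, IsGalois.card_aut_eq_finrank,
    kumField_finrank hp hζ ha]

/-- Two `p`-th roots of the same nonzero element differ by a power of `ζ`. -/
theorem exists_pow_mul_of_root (hp : p.Prime) (hζ : IsPrimitiveRoot ζ p)
    {L : Type} [Field L] [Algebra F L] {x : L} (hx : x ≠ 0) {β β' : L}
    (hβ : β ^ p = x) (hβ' : β' ^ p = x) :
    ∃ i : ℕ, i < p ∧ β' = algebraMap F L (ζ ^ i) * β := by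
  have hβ0 : β ≠ 0 := by
    rintro rfl
    rw [zero_pow hp.ne_zero] at hβ
    exact hx hβ.symm
  have hζL : IsPrimitiveRoot (algebraMap F L ζ) p := hζ.map_of_injective (algebraMap F L).injective
  have h1 : (β' / β) ^ p = 1 := by
    rw [div_pow, hβ, hβ', div_self hx]
  have : NeZero p := ⟨hp.ne_zero⟩
  obtain ⟨i, hi, h2⟩ := hζL.eq_pow_of_pow_eq_one h1
  refine ⟨i, hi, ?_⟩
  rw [map_pow, h2, div_mul_cancel₀ _ hβ0]

end Gen2

end Fermat.Agent.S55.H98
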