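/-
S55 (Poitou–Tate), Program C — the local Hilbert symbol, part 2 (helper98).

For an embedded local field `F` (C3 model of `H66`) containing a primitive `p`-th root of unity
`ζ`, and `a, b ∈ Fˣ`:

  `hilb q F p ζ a b := inv_{F(a^{1/p})/F} (cycClass σ_a b) ∈ ℚ/ℤ`   (`0` if `a` is a `p`-th power),

where `σ_a` is the Kummer generator (`σ_a α = ζ α`).  This file: the characterisation, additivity
in `b`, `p`-torsion, the kernel (`= Nm F(a^{1/p})ˣ`) and LEFT NON-DEGENERACY
(`hilb a b = 0 ∀ b ⇒ a ∈ Fˣᵖ`, from the local norm index).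
-/
import Fermat.Agent.S55.H98.HilbertField
import Fermat.Agent.S55.H66.C3Main

set_option autoImplicit false

open Polynomial IntermediateField CategoryTheory groupCohomology

noncomputable section

namespace Fermat.Agent.S55.H98

open Fermat.Agent.S55.H66 Fermat.Agent.S55.H24

section Symbol

variable (q : ℕ) [Fact q.Prime] (F : Type) [Field F] [Algebra F (PadicAlgCl q)]

open Classical in
/-- **The local Hilbert symbol** (additive, with values in the `p`-torsion of `ℚ/ℤ`). -/
def hilb (p : ℕ) (ζ : F) (a b : Fˣ) : QZ :=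
  if h : ∃ σ : kumField q p (a : F) ≃ₐ[F] kumField q p (a : F), IsKumGen q p ζ (a : F) σ then
    H66.inv q (kumField q p (a : F))
      (cycClass (Rep.ofAlgebraAutOnUnits F (kumField q p (a : F))) h.choose
        (baseUnit (kumField q p (a : F)) b))
  else 0

variable {q F}
variable {p : ℕ} {ζ : F}

/-- Characterisation of the symbol by any Kummer generator. -/
theorem hilb_eq (hp : p.Prime) (hζ : IsPrimitiveRoot ζ p) {a : Fˣ} (ha : ∀ c : F, c ^ p ≠ a)
    {σ : kumField q p (a : F) ≃ₐ[F] kumField q p (a : F)} (hσ : IsKumGen q p ζ (a : F) σ)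
    (b : Fˣ) :
    hilb q F p ζ a b = H66.inv q (kumField q p (a : F))
      (cycClass (Rep.ofAlgebraAutOnUnits F (kumField q p (a : F))) σ
        (baseUnit (kumField q p (a : F)) b)) := by
  have h : ∃ σ : kumField q p (a : F) ≃ₐ[F] kumField q p (a : F), IsKumGen q p ζ (a : F) σ :=
    ⟨σ, hσ⟩
  unfold hilb
  rw [dif_pos h, IsKumGen.unique hp hζ ha h.choose_spec hσ]

/-- The symbol vanishes when the first argument is a `p`-th power. -/
theorem hilb_of_pow (hp : p.Prime) (hζ : IsPrimitiveRoot ζ p) {a : Fˣ} {c : F}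
    (hc : c ^ p = a) (b : Fˣ) : hilb q F p ζ a b = 0 := by
  have hc0 : c ≠ 0 := by
    rintro rfl
    rw [zero_pow hp.ne_zero] at hc
    exact a.ne_zero hc.symm
  unfold hilb
  rw [dif_neg]
  rintro ⟨σ, hσ⟩
  exact not_isKumGen_of_pow hp hζ hc0 hc σ hσ

end Symbol

section Props

variable {q : ℕ} [Fact q.Prime] {F : Type} [Field F] [Algebra ℚ_[q] F] [Algebra F (PadicAlgCl q)]
  [IsScalarTower ℚ_[q] F (PadicAlgCl q)] [FiniteDimensional ℚ_[q] F]
variable {p : ℕ} {ζ : F}

omit [Algebra ℚ_[q] F] [IsScalarTower ℚ_[q] F (PadicAlgCl q)] [FiniteDimensional ℚ_[q] F] in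
/-- Additivity in the second argument. -/
theorem hilb_mul_right (hp : p.Prime) (hζ : IsPrimitiveRoot ζ p) (a b b' : Fˣ) :
    hilb q F p ζ a (b * b') = hilb q F p ζ a b + hilb q F p ζ a b' := by
  by_cases ha : ∀ c : F, c ^ p ≠ a
  · obtain ⟨σ, hσ, hgen⟩ := exists_isKumGen (q := q) hp hζ ha
    have := kumField_isGalois (q := q) hp hζ ha
    rw [hilb_eq hp hζ ha hσ, hilb_eq hp hζ ha hσ, hilb_eq hp hζ ha hσ, baseUnit_mul,
      H37.leafCycAdd ℤ _ _ σ hgen _ _ (baseUnit_invariant _ b) (baseUnit_invariant _ b'),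
      map_add]
  · push Not at ha
    obtain ⟨c, hc⟩ := ha
    rw [hilb_of_pow hp hζ hc, hilb_of_pow hp hζ hc, hilb_of_pow hp hζ hc, add_zero]

omit [Algebra ℚ_[q] F] [IsScalarTower ℚ_[q] F (PadicAlgCl q)] [FiniteDimensional ℚ_[q] F] in
theorem hilb_one_right (hp : p.Prime) (hζ : IsPrimitiveRoot ζ p) (a : Fˣ) :
    hilb q F p ζ a 1 = 0 := by
  have h := hilb_mul_right (q := q) hp hζ a 1 1
  rw [mul_one] at h
  exact left_eq_add.mp h

omit [Algebra ℚ_[q] F] [IsScalarTower ℚ_[q] F (PadicAlgCl q)] [FiniteDimensional ℚ_[q] F] in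
theorem hilb_pow_right (hp : p.Prime) (hζ : IsPrimitiveRoot ζ p) (a b : Fˣ) (k : ℕ) :
    hilb q F p ζ a (b ^ k) = k • hilb q F p ζ a b := by
  induction k with
  | zero => rw [pow_zero, zero_smul, hilb_one_right hp hζ]
  | succ k ih => rw [pow_succ, hilb_mul_right hp hζ, ih, succ_nsmul]

/-- The kernel of `hilb a ·` is the norm group of `F(a^{1/p})/F`. -/
theorem hilb_eq_zero_iff (hp : p.Prime) (hζ : IsPrimitiveRoot ζ p) {a : Fˣ}
    (ha : ∀ c : F, c ^ p ≠ a) (b : Fˣ) :
    hilb q F p ζ a b = 0 ↔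
      b ∈ (Units.map (Algebra.norm F : kumField q p (a : F) →* F)).range := by
  obtain ⟨σ, hσ, hgen⟩ := exists_isKumGen (q := q) hp hζ ha
  have hgal := kumField_isGalois (q := q) hp hζ ha
  rw [hilb_eq hp hζ ha hσ, map_eq_zero_iff _ (c3_inv q F (kumField q p (a : F))).2.1,
    H37.leafCycZero ℤ _ _ σ hgen _ (baseUnit_invariant _ b)]
  constructor
  · rintro ⟨y, hy⟩
    refine ⟨toUnit _ y, Units.ext ?_⟩
    apply (algebraMap F (kumField q p (a : F))).injective
    have h1 := congrArg (fun z => ((toUnit (kumField q p (a : F)) z :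
      (kumField q p (a : F))ˣ) : kumField q p (a : F))) hy
    simp only [toUnit_sum, toUnit_baseUnit, Units.coe_prod, toUnit_rho, Units.coe_map,
      MonoidHom.coe_coe] at h1
    rw [Units.coe_map]
    exact (Algebra.norm_eq_prod_automorphisms F _).trans h1
  · rintro ⟨u, hu⟩
    refine ⟨Rep.toAdditive.symm (Additive.ofMul u), ?_⟩
    apply toUnit_injective
    apply Units.ext
    have h1 := congrArg (fun z : Fˣ => algebraMap F (kumField q p (a : F)) (z : F)) hu
    simp only [Units.coe_map, Algebra.norm_eq_prod_automorphisms] at h1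
    rw [toUnit_sum, Units.coe_prod, toUnit_baseUnit, Units.coe_map, MonoidHom.coe_coe, ← h1]
    rfl

/-- The symbol is killed by `p`. -/
theorem nsmul_hilb (hp : p.Prime) (hζ : IsPrimitiveRoot ζ p) (a b : Fˣ) :
    p • hilb q F p ζ a b = 0 := by
  by_cases ha : ∀ c : F, c ^ p ≠ a
  · rw [← hilb_pow_right hp hζ, hilb_eq_zero_iff hp hζ ha]
    refine ⟨Units.map (algebraMap F (kumField q p (a : F)) : F →* kumField q p (a : F)) b,
      Units.ext ?_⟩
    rw [Units.coe_map, Units.coe_map]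
    exact (Algebra.norm_algebraMap (b : F)).trans
      (by rw [kumField_finrank hp hζ ha, Units.val_pow_eq_pow_val])
  · push Not at ha
    obtain ⟨c, hc⟩ := ha
    rw [hilb_of_pow hp hζ hc, smul_zero]

/-- **Left non-degeneracy**, existence form: if `a` is not a `p`-th power some `b` has
`hilb a b ≠ 0` (the local norm index of `F(a^{1/p})/F` is `p`). -/
theorem exists_hilb_ne_zero (hp : p.Prime) (hζ : IsPrimitiveRoot ζ p) {a : Fˣ}
    (ha : ∀ c : F, c ^ p ≠ a) : ∃ b : Fˣ, hilb q F p ζ a b ≠ 0 := by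
  obtain ⟨σ, hσ, hgen⟩ := exists_isKumGen (q := q) hp hζ ha
  have hgal := kumField_isGalois (q := q) hp hζ ha
  have hcyc : IsCyclic (kumField q p (a : F) ≃ₐ[F] kumField q p (a : F)) :=
    isCyclic_iff_exists_zpowers_eq_top.2 ⟨σ, eq_top_iff.2 fun τ _ => hgen τ⟩
  have hNI := leafNormIndex q F (kumField q p (a : F)) hcyc
  rw [kumField_finrank hp hζ ha] at hNI
  by_contra hcon
  push Not at hcon
  have htop : (Units.map (Algebra.norm F : kumField q p (a : F) →* F)).range = ⊤ :=
    eq_top_iff.2 fun b _ => (hilb_eq_zero_iff hp hζ ha b).1 (hcon b)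
  rw [htop, Subgroup.index_top] at hNI
  exact hp.one_lt.ne hNI

/-- **Left non-degeneracy**: if `hilb a b = 0` for all `b` then `a` is a `p`-th power. -/
theorem exists_pow_eq_of_hilb_eq_zero (hp : p.Prime) (hζ : IsPrimitiveRoot ζ p) {a : Fˣ}
    (h : ∀ b : Fˣ, hilb q F p ζ a b = 0) : ∃ c : F, c ^ p = a := by
  by_contra hcon
  push Not at hcon
  obtain ⟨b, hb⟩ := exists_hilb_ne_zero (q := q) hp hζ hcon
  exact hb (h b)

end Props

end Fermat.Agent.S55.H98
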