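/-
S55 (Poitou–Tate), Program C — the LOCAL KUMMER NORM INDEX (helper98).

For an embedded local field `F` (`PadicAlgCl q` model of `H66`) containing a primitive `p`-th root
of unity and `g : F` which is not a `p`-th power, the Kummer norm group
`H8.kummerNormGroup p g ≤ Fˣ` (norms of units of `F[X]/(X^p - g)`) has index exactly `p`; in
particular it is a proper subgroup.

Inputs: the landed local norm index `H98.leafNormIndex` (cyclic extensions of embedded local
fields) and helper83's field model of the Kummer norm group (`NORM-4`).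
Consumers: C6 (COUNT)/(CLASS), C7, C4 (Hilbert symbol), C8 (E1).
-/
import Fermat.Agent.S55.H98.LeafNormIndex
import Fermat.Agent.S55.H83.KummerNormH8

set_option autoImplicit false

open Polynomial IntermediateField

namespace Fermat.Agent.S55.H98

section Local

/-- **Kummer extensions of embedded local fields.**  If `F ∋ μ_p` and `g` is not a `p`-th power
in `F`, then for a `p`-th root `β ∈ Ω` of `g` the field `F(β)` is cyclic of degree `p` over
`F`. -/
theorem exists_kummer_field (q : ℕ) [Fact q.Prime] (F : Type) [Field F] [Algebra ℚ_[q] F]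
    [Algebra F (PadicAlgCl q)] [IsScalarTower ℚ_[q] F (PadicAlgCl q)]
    [FiniteDimensional ℚ_[q] F] {p : ℕ} (hp : p.Prime) {ζ : F} (hζ : IsPrimitiveRoot ζ p) {g : F}
    (hg : ∀ b : F, b ^ p ≠ g) :
    ∃ (L : IntermediateField F (PadicAlgCl q)) (_ : FiniteDimensional F L) (_ : IsGalois F L)
      (α : L), α ^ p = algebraMap F L g ∧ Module.finrank F L = p ∧ IsCyclic (L ≃ₐ[F] L) := by
  classical
  obtain ⟨β, hβ⟩ := IsAlgClosed.exists_pow_nat_eq (algebraMap F (PadicAlgCl q) g) hp.pos
  have hirr : Irreducible (X ^ p - C g : F[X]) := X_pow_sub_C_irreducible_of_prime hp hg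
  have hroot : aeval β (X ^ p - C g : F[X]) = 0 := by
    simp [hβ]
  have hmin : minpoly F β = X ^ p - C g :=
    (minpoly.eq_of_irreducible_of_monic hirr hroot (monic_X_pow_sub_C g hp.ne_zero)).symm
  have hint : IsIntegral F β := ⟨X ^ p - C g, monic_X_pow_sub_C g hp.ne_zero, hroot⟩
  have hdeg : Module.finrank F F⟮β⟯ = p := by
    rw [IntermediateField.adjoin.finrank hint, hmin, natDegree_X_pow_sub_C]
  have hfd : FiniteDimensional F F⟮β⟯ := IntermediateField.adjoin.finiteDimensional hint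
  have hα : (AdjoinSimple.gen F β) ^ p = algebraMap F F⟮β⟯ g := by
    apply Subtype.ext
    simpa using hβ
  have hζ' : (primitiveRoots p F).Nonempty := ⟨ζ, (mem_primitiveRoots hp.pos).2 hζ⟩
  have : Fact (Irreducible (X ^ p - C g : F[X])) := ⟨hirr⟩
  have hsplit := isSplittingField_AdjoinRoot_X_pow_sub_C hζ' hirr
  have hgal : IsGalois F (AdjoinRoot (X ^ p - C g : F[X])) :=
    isGalois_of_isSplittingField_X_pow_sub_C hζ' hirr _
  obtain ⟨e⟩ := Fermat.Agent.S55.H83.nonempty_kummerAlg_algEquiv_of_irreducible hp.ne_zero hirr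
    (AdjoinSimple.gen F β) hα hdeg
  have hgalL : IsGalois F F⟮β⟯ := IsGalois.of_algEquiv e
  have hcard : Nat.card (F⟮β⟯ ≃ₐ[F] F⟮β⟯) = p := by
    rw [IsGalois.card_aut_eq_finrank, hdeg]
  have := Fact.mk hp
  exact ⟨F⟮β⟯, hfd, hgalL, AdjoinSimple.gen F β, hα, hdeg, isCyclic_of_prime_card hcard⟩

/-- **The local Kummer norm index.**  `F` an embedded local field containing a primitive `p`-th
root of unity, `g ∈ F` not a `p`-th power: `(Fˣ : Nm (F[X]/(X^p - g))ˣ) = p`. -/
theorem kummerNormGroup_index (q : ℕ) [Fact q.Prime] (F : Type) [Field F] [Algebra ℚ_[q] F]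
    [Algebra F (PadicAlgCl q)] [IsScalarTower ℚ_[q] F (PadicAlgCl q)]
    [FiniteDimensional ℚ_[q] F] {p : ℕ} (hp : p.Prime) {ζ : F} (hζ : IsPrimitiveRoot ζ p) {g : F}
    (hg : ∀ b : F, b ^ p ≠ g) : (Fermat.Agent.S55.H8.kummerNormGroup p g).index = p := by
  obtain ⟨L, hfd, hgal, α, hα, hdeg, hcyc⟩ := exists_kummer_field q F hp hζ hg
  have hNI := leafNormIndex q F L hcyc
  rw [hdeg] at hNI
  rw [Fermat.Agent.S55.H83.kummerNormGroup_eq_range_norm_of_not_pow hp hg α hα hdeg]
  exact hNI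

/-- The local Kummer norm group of a non-`p`-th-power is a proper subgroup. -/
theorem kummerNormGroup_ne_top (q : ℕ) [Fact q.Prime] (F : Type) [Field F] [Algebra ℚ_[q] F]
    [Algebra F (PadicAlgCl q)] [IsScalarTower ℚ_[q] F (PadicAlgCl q)]
    [FiniteDimensional ℚ_[q] F] {p : ℕ} (hp : p.Prime) {ζ : F} (hζ : IsPrimitiveRoot ζ p) {g : F}
    (hg : ∀ b : F, b ^ p ≠ g) : Fermat.Agent.S55.H8.kummerNormGroup p g ≠ ⊤ := by
  intro h
  have h1 := kummerNormGroup_index q F hp hζ hg
  rw [h, Subgroup.index_top] at h1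
  exact hp.one_lt.ne h1

/-- Some element of `Fˣ` is not a norm from `F[X]/(X^p - g)`. -/
theorem exists_not_mem_kummerNormGroup (q : ℕ) [Fact q.Prime] (F : Type) [Field F] [Algebra ℚ_[q] F]
    [Algebra F (PadicAlgCl q)] [IsScalarTower ℚ_[q] F (PadicAlgCl q)]
    [FiniteDimensional ℚ_[q] F] {p : ℕ} (hp : p.Prime) {ζ : F} (hζ : IsPrimitiveRoot ζ p)
    {g : F} (hg : ∀ b : F, b ^ p ≠ g) :
    ∃ x : Fˣ, x ∉ Fermat.Agent.S55.H8.kummerNormGroup p g := by
  by_contra hcon
  push Not at hcon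
  exact kummerNormGroup_ne_top q F hp hζ hg (eq_top_iff.2 fun x _ => hcon x)

end Local

end Fermat.Agent.S55.H98
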